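import Fermat.Agent.Ribet.H277.UnitSeries
import Fermat.Agent.A2.Mod.H708.Vinf
import Fermat.Agent.A2.Mod.H751.Fricke
import Fermat.Agent.S15.H422.UnitFricke

/-!
# RIBET / wall at `p` / INST-B (helper277), part 2: Gauss valuation and Fricke involution

Level `N = M * p`.  `D = gE = Δ(t)/Δ(t^p)`, `D' = uE = p¹² Δ(t^p)/Δ(t)`.

* `unit_of_incl` : a function whose `t`-expansion is the image of a unit of `R_E((t))` is a unit
  of `V∞`;
* `gE_mem`, `gE_inv_mem` : `D` is a unit of `V∞`;
* `frickeE_uE` : at level `p`, `W_p D' = D`;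
* `coe_fricke_uE` : at level `M * p`, the `t`-expansion of `W_{Mp} D'` is
  `Δ(t^M)/Δ(t^{Mp})`, for EVERY `W` with `IsFricke E (M * p) W`;
* `fricke_uE_mem`, `fricke_uE_inv_mem` : `W D'` is a unit of `V∞`, i.e. `D'` is a unit of
  `V₀ = V∞.comap W`.
-/

set_option autoImplicit false
set_option linter.unusedSectionVars false
set_option linter.style.haveILetI false
set_option synthInstance.maxHeartbeats 400000
set_option maxHeartbeats 1600000

noncomputable section

namespace Fermat.Agent.Ribet.H277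

open ModularCurve HahnSeries Polynomial
open Fermat.Agent.S28 Fermat.Agent.S24 Fermat.Agent.A2 Fermat.Agent.A2.Mod

/-! ## Units of the Gauss valuation ring -/

section Vinf

variable {P : ValuationSubring Qb} {E : IntermediateField ℚ Qb} {N : ℕ}

/-- A function whose `t`-expansion is the image of a unit of `R_E((t))` is a unit of `V∞`. -/
theorem unit_of_incl {V : ValuationSubring (FE E N)} (hV : IsVinf P E N V) {f : FE E N}
    (U U' : LaurentSeries (RE P E)) (hUU' : U * U' = 1)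
    (h : (f : LaurentSeries E) = H708.incl (RE P E) U) : f ∈ V ∧ f⁻¹ ∈ V := by
  refine ⟨Mod.H708.mem_of_isVinf_of_incl hV U h, Mod.H708.inv_mem_of_isVinf_of_incl hV U h ?_⟩
  intro h0
  have h1 := congrArg (H708.red (RE P E)) hUU'
  rw [map_mul, h0, zero_mul, map_one] at h1
  exact zero_ne_one h1

variable (P E)

theorem incl_gL (p : ℕ) [NeZero p] : H708.incl (RE P E) (gL (RE P E) p) = gL E p :=
  coeffMap_gL _ p

theorem incl_qExpand_gL (m p : ℕ) [NeZero m] [NeZero p] :
    H708.incl (RE P E) (qExpand (RE P E) m (gL (RE P E) p)) = qExpand E m (gL E p) := by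
  rw [coeffMap_qExpand, incl_gL]

variable {P E}

/-- a function with `t`-expansion `Δ(t^m)/Δ(t^{mp})` is a unit of `V∞`. -/
theorem unit_of_coe_eq_qExpand_gL {V : ValuationSubring (FE E N)} (hV : IsVinf P E N V)
    {f : FE E N} (m p : ℕ) [NeZero m] [NeZero p]
    (h : (f : LaurentSeries E) = qExpand E m (gL E p)) : f ∈ V ∧ f⁻¹ ∈ V := by
  refine unit_of_incl hV (qExpand (RE P E) m (gL (RE P E) p))
    (qExpand (RE P E) m (unitL (RE P E) p)) ?_ ?_
  · rw [← map_mul, gL_mul_unitL, map_one]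
  · rw [h, incl_qExpand_gL]

/-- a function with `t`-expansion `Δ(t)/Δ(t^p)` is a unit of `V∞`. -/
theorem unit_of_coe_eq_gL {V : ValuationSubring (FE E N)} (hV : IsVinf P E N V)
    {f : FE E N} (p : ℕ) [NeZero p]
    (h : (f : LaurentSeries E) = gL E p) : f ∈ V ∧ f⁻¹ ∈ V := by
  refine unit_of_incl hV (gL (RE P E) p) (unitL (RE P E) p) (gL_mul_unitL _ p) ?_
  rw [h, incl_gL]

end Vinf

/-! ## The Fricke involution at level `p` -/

section LevelP

variable (E : IntermediateField ℚ Qb) (p : ℕ) [NeZero p]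

theorem iotaE_uE : Mod.H751.iotaE E p (uE E p p dvd_rfl) = Fermat.Agent.S15.H422.uF p := by
  apply Subtype.ext
  rw [Mod.H751.coe_iotaE, coe_uE, coeffMap_uSeriesE]
  rfl

/-- `W_p (D') * D' = p¹²` at level `p`. -/
theorem frickeE_uE_mul :
    Mod.H751.frickeE E p (uE E p p dvd_rfl) * uE E p p dvd_rfl
      = algebraMap E (FE E p) ((p : E) ^ 12) := by
  apply Mod.H751.iotaE_injective E p
  rw [map_mul, Mod.H751.iotaE_frickeE, iotaE_uE, Fermat.Agent.S15.H422.wF_uF_mul_uF,
    Mod.H751.iotaE_algebraMap]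
  congr 1

/-- `W_p (D') = D` at level `p`. -/
theorem frickeE_uE : Mod.H751.frickeE E p (uE E p p dvd_rfl) = gE E p p dvd_rfl := by
  apply mul_right_cancel₀ (uE_ne_zero E p p dvd_rfl)
  rw [frickeE_uE_mul, gE_mul_uE]

end LevelP

/-! ## The Fricke involution at level `M * p` -/

section LevelMp

variable (E : IntermediateField ℚ Qb) (M p : ℕ) [NeZero M] [NeZero p]

theorem FE_le : FE E p ≤ FE E (M * p) :=
  laurentBaseChange_mono277 (L := E) (full_degeneracy_le (dvd_mul_left p M))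

/-- the inclusion `F_{p,E} ⊆ F_{Mp,E}`. -/
def inclE : FE E p →ₐ[E] FE E (M * p) :=
  IntermediateField.inclusion (FE_le E M p)

theorem coe_inclE (f : FE E p) :
    ((inclE E M p f : FE E (M * p)) : LaurentSeries E) = (f : LaurentSeries E) :=
  IntermediateField.coe_inclusion (FE_le E M p) f

theorem inclE_uE : inclE E M p (uE E p p dvd_rfl) = uE E (M * p) p (dvd_mul_left p M) :=
  Subtype.ext (coe_inclE E M p _)

theorem inclE_gE : inclE E M p (gE E p p dvd_rfl) = gE E (M * p) p (dvd_mul_left p M) :=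
  Subtype.ext (coe_inclE E M p _)

theorem inclE_jE (d : ℕ) [NeZero d] (hd : d ∣ p) :
    inclE E M p (jE E p d hd) = jE E (M * p) d (hd.trans (dvd_mul_left p M)) :=
  Subtype.ext (coe_inclE E M p _)

theorem coe_jE277 (N d : ℕ) [NeZero d] (hd : d ∣ N) :
    ((jE E N d hd : FE E N) : LaurentSeries E) = qExpand E d (jqModC E) := by
  show coeffEmb E (qExpand ℚ d jq) = _
  rw [coeffEmb, coeffMap_qExpand, ← jqModC_rat, coeffMap_jqModC]

variable {E M p}

/-- `φ₁ f = t`-expansion of `W (incl f)`. -/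
def phiOne (W : FE E (M * p) ≃ₐ[E] FE E (M * p)) : FE E p →+* LaurentSeries E :=
  ((FE E (M * p)).val.toRingHom.comp (W : FE E (M * p) →+* FE E (M * p))).comp
    (inclE E M p).toRingHom

/-- `φ₂ f = ` the `t ↦ t^M` transform of the `t`-expansion of `W_p f`. -/
def phiTwo (E : IntermediateField ℚ Qb) (M p : ℕ) [NeZero M] [NeZero p] :
    FE E p →+* LaurentSeries E :=
  ((qExpand E M).comp (FE E p).val.toRingHom).comp
    (Mod.H751.frickeE E p : FE E p →+* FE E p)

theorem phiOne_apply (W : FE E (M * p) ≃ₐ[E] FE E (M * p)) (f : FE E p) :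
    phiOne W f = ((W (inclE E M p f) : FE E (M * p)) : LaurentSeries E) := rfl

theorem phiTwo_apply (f : FE E p) :
    phiTwo E M p f = qExpand E M ((Mod.H751.frickeE E p f : FE E p) : LaurentSeries E) := rfl

theorem phiOne_const (W : FE E (M * p) ≃ₐ[E] FE E (M * p)) (e : E) :
    phiOne W (algebraMap E (FE E p) e) = algebraMap E (LaurentSeries E) e := by
  rw [phiOne_apply, AlgHom.commutes, AlgEquiv.commutes]
  exact IntermediateField.coe_algebraMap_apply _ e

theorem phiTwo_const (e : E) :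
    phiTwo E M p (algebraMap E (FE E p) e) = algebraMap E (LaurentSeries E) e := by
  rw [phiTwo_apply, AlgEquiv.commutes]
  have h : ((algebraMap E (FE E p) e : FE E p) : LaurentSeries E)
      = algebraMap E (LaurentSeries E) e := IntermediateField.coe_algebraMap_apply _ e
  rw [h, algebraMap_laurentSeries_eq_single, qExpand_single, mul_zero]

theorem phiOne_jE {W : FE E (M * p) ≃ₐ[E] FE E (M * p)} (hW : IsFricke E (M * p) W)
    (d d' : ℕ) [NeZero d] [NeZero d'] (hdd : d * d' = p) :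
    phiOne W (jE E p d ⟨d', hdd.symm⟩) = qExpand E (M * d') (jqModC E) := by
  have hd'0 : d' ≠ 0 := NeZero.ne d'
  haveI : NeZero (M * d') := ⟨mul_ne_zero (NeZero.ne M) hd'0⟩
  have hd'p : d' ∣ p := ⟨d, by rw [← hdd, mul_comm]⟩
  have hMd' : M * d' ∣ M * p := mul_dvd_mul_left M hd'p
  have hdp : d ∣ p := ⟨d', hdd.symm⟩
  rw [phiOne_apply, inclE_jE, hW.1 d (M * d') (hdp.trans (dvd_mul_left p M)) hMd'
      (by rw [← hdd]; ring), coe_jE277]

theorem phiTwo_jE (d d' : ℕ) [NeZero d] [NeZero d'] (hdd : d * d' = p) :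
    phiTwo E M p (jE E p d ⟨d', hdd.symm⟩) = qExpand E (M * d') (jqModC E) := by
  have hd'p : d' ∣ p := ⟨d, by rw [← hdd, mul_comm]⟩
  have hdp : d ∣ p := ⟨d', hdd.symm⟩
  rw [phiTwo_apply, (Mod.H751.isFricke_frickeE E p).1 d d' hdp hd'p hdd,
    coe_jE277, qExpand_qExpand]

/-- **The `t`-expansion of `W (incl f)`**, `f` of level `p`, `W` the Fricke involution of level
`M * p`: it is the `t ↦ t^M` transform of the expansion of `W_p f`. -/
theorem coe_fricke_inclE {W : FE E (M * p) ≃ₐ[E] FE E (M * p)} (hW : IsFricke E (M * p) W)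
    (f : FE E p) :
    ((W (inclE E M p f) : FE E (M * p)) : LaurentSeries E)
      = qExpand E M ((Mod.H751.frickeE E p f : FE E p) : LaurentSeries E) := by
  rw [← phiOne_apply, ← phiTwo_apply]
  refine Mod.H751.ringHom_ext_FE p (phiOne W) (phiTwo E M p) ?_ ?_ f
  · intro e
    rw [phiOne_const, phiTwo_const]
  · intro d _ hd
    obtain ⟨d', hd'⟩ := hd
    have hd'0 : d' ≠ 0 := by
      rintro rfl
      exact (NeZero.ne p) (by rw [hd', mul_zero])
    haveI : NeZero d' := ⟨hd'0⟩
    exact (phiOne_jE hW d d' hd'.symm).trans (phiTwo_jE d d' hd'.symm).symm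

/-- **`W D'` has `t`-expansion `Δ(t^M)/Δ(t^{Mp})`.** -/
theorem coe_fricke_uE {W : FE E (M * p) ≃ₐ[E] FE E (M * p)} (hW : IsFricke E (M * p) W) :
    ((W (uE E (M * p) p (dvd_mul_left p M)) : FE E (M * p)) : LaurentSeries E)
      = qExpand E M (gL E p) := by
  rw [← inclE_uE, coe_fricke_inclE hW, frickeE_uE, coe_gE]

/-- **`W D` has `t`-expansion `p¹² Δ(t^{Mp})/Δ(t^M)`.** -/
theorem coe_fricke_gE {W : FE E (M * p) ≃ₐ[E] FE E (M * p)} (hW : IsFricke E (M * p) W) :
    ((W (gE E (M * p) p (dvd_mul_left p M)) : FE E (M * p)) : LaurentSeries E)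
      = qExpand E M (uSeriesE E p) := by
  have h : Mod.H751.frickeE E p (gE E p p dvd_rfl) = uE E p p dvd_rfl := by
    rw [← frickeE_uE, Mod.H751.frickeE_frickeE]
  rw [← inclE_gE, coe_fricke_inclE hW, h, coe_uE]

/-- `W D'` is a unit of `V∞`: `D'` is a unit on the component `C₀`. -/
theorem fricke_uE_unit {P : ValuationSubring Qb} {V : ValuationSubring (FE E (M * p))}
    (hV : IsVinf P E (M * p) V) {W : FE E (M * p) ≃ₐ[E] FE E (M * p)}
    (hW : IsFricke E (M * p) W) :
    W (uE E (M * p) p (dvd_mul_left p M)) ∈ V ∧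
      (W (uE E (M * p) p (dvd_mul_left p M)))⁻¹ ∈ V :=
  unit_of_coe_eq_qExpand_gL hV M p (coe_fricke_uE hW)

/-- `D` is a unit of `V∞`: `D` is a unit on the component `C∞`. -/
theorem gE_unit {P : ValuationSubring Qb} {N : ℕ} [NeZero N] (hpN : p ∣ N)
    {V : ValuationSubring (FE E N)} (hV : IsVinf P E N V) :
    gE E N p hpN ∈ V ∧ (gE E N p hpN)⁻¹ ∈ V :=
  unit_of_coe_eq_gL hV p (coe_gE E N p hpN)

end LevelMp

end Fermat.Agent.Ribet.H277
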