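import Fermat.Agent.Ribet.H277.UnitFricke
import Fermat.Agent.A2.Mod.Asm
import Fermat.Agent.A2.Mod.H873.L13
import Fermat.Agent.A2.H408.Coord
import Fermat.Agent.Ribet.H704.I6Spec
import Fermat.Agent.A2.H849.Hartogs

/-!
# RIBET / wall at `p` / INST-B (helper277): the modular UNIT PAIR in the finite chart

Setting of `A2/Mod/Spec.lean` + `A2/Mod/Asm.lean` with `q = p`: level `N = M * p`, `p ∤ M`,
`R_E = P ∩ E` a discrete valuation ring with uniformiser `w`, coordinate `x = j · j_p`,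
finite chart `B = chartAlg P E (M * p) x` (integral closure of `R_E[x]` in `F_{N,E}`),
`V = V∞` (Gauss valuation ring), `W` the Fricke involution, `V₀ = V.comap W`.

`D  = gE = Δ(t)/Δ(t^p)`,  `D' = uE = p¹² Δ(t^p)/Δ(t)`,  `D · D' = p¹²`.

* `uE_mem_chartAlg`, `gE_mem_chartAlg` : `D, D' ∈ B` (both are integral over `ℤ[x]`);
* `gE_unit` (`UnitFricke.lean`) : `D` is a unit of `V∞`;  `fricke_uE_unit` : `W D'` is a unit of
  `V∞`, i.e. `D'` is a unit of `V₀`;
* `exists_unit_pow` : `p · u = w ^ e` in `R_E` with `u` a unit, `e ≠ 0`;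
* `pairD`, `pairD'` : `D` and `D'' = u¹² D'` as elements of `B`;  `pairD_mul` : `D · D'' = w ^ (12 e)`;
* **`isUnitPair_of_isCut`** : for `p₁ = B ∩ w V∞`, `p₂ = B ∩ w V₀` (`IsCut`, as in `S1Statement`):
  `I6.IsUnitPair p₁ p₂ w D D'' (12 e)`;
* **`isUnitPair_or`** : for ANY two primes with `p₁ ⊓ p₂ = (w)` (e.g. the components of any
  `SSChart w B`): `IsUnitPair p₁ p₂ w D D'' (12 e) ∨ IsUnitPair p₁ p₂ w D'' D (12 e)`;
* `isUnitPair_map_locAt` : a unit pair of `B` stays a unit pair in the node ring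
  `A2.H849.locAt F n` of INST-A (`Ribet/H132/InstA.lean`).
-/

set_option autoImplicit false
set_option linter.unusedSectionVars false
set_option linter.style.haveILetI false
set_option synthInstance.maxHeartbeats 400000
set_option maxHeartbeats 400000

noncomputable section

namespace Fermat.Agent.Ribet.H277

open ModularCurve HahnSeries Polynomial
open Fermat.Agent.S28 Fermat.Agent.S24 Fermat.Agent.A2.Mod
open Fermat.Agent.Ribet.H704

/-! ## Abstract lemmas (Mathlib only) -/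

section Abstract

/-- `Φ(X = a; Y = b) = 0`, `Φ` monic in `X`, `a b ∈ V` ⟹ `a ∈ V`. -/
theorem mem_of_mul_mem277 {K : Type*} [Field K] {a b : K} (Φ : Polynomial (Polynomial ℤ))
    (hΦ : Φ.Monic) (h : Φ.eval₂ (Polynomial.aeval (R := ℤ) b).toRingHom a = 0)
    (V : ValuationSubring K) (hx : a * b ∈ V) : a ∈ V := by
  by_contra ha
  have ha0 : a ≠ 0 := fun h0 => ha (h0 ▸ V.zero_mem)
  have hinv : a⁻¹ ∈ V := (V.mem_or_inv_mem a).resolve_left ha
  have hb : b ∈ V := by
    have : b = a * b * a⁻¹ := by field_simp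
    rw [this]
    exact V.mul_mem _ _ hx hinv
  exact ha (H873.mem_valuationSubring_of_monic_eval Φ hΦ h V hb)

/-- Two elements with product `π ^ N`, neither divisible by `π`, form a unit pair (in one of the
two orders) for any two primes with `p₁ ⊓ p₂ = (π)`. -/
theorem isUnitPair_or_of_not_dvd {B : Type*} [CommRing B] (p₁ p₂ : Ideal B) [h₁ : p₁.IsPrime]
    [h₂ : p₂.IsPrime] (π D D' : B) (N : ℕ) (hN : N ≠ 0)
    (hinf : p₁ ⊓ p₂ = Ideal.span {π}) (hmul : D * D' = π ^ N) (hD : ¬ π ∣ D) (hD' : ¬ π ∣ D') :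
    I6.IsUnitPair p₁ p₂ π D D' N ∨ I6.IsUnitPair p₁ p₂ π D' D N := by
  have hπ : π ∈ p₁ ⊓ p₂ := by
    rw [hinf]
    exact Ideal.subset_span (Set.mem_singleton π)
  have hπN₁ : D * D' ∈ p₁ := by
    rw [hmul]
    exact Ideal.pow_mem_of_mem _ hπ.1 N (Nat.pos_of_ne_zero hN)
  have hπN₂ : D * D' ∈ p₂ := by
    rw [hmul]
    exact Ideal.pow_mem_of_mem _ hπ.2 N (Nat.pos_of_ne_zero hN)
  have hnD : ∀ a : B, ¬ π ∣ a → a ∈ p₁ → a ∉ p₂ := by
    intro a ha h1 h2
    have : a ∈ p₁ ⊓ p₂ := ⟨h1, h2⟩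
    rw [hinf, Ideal.mem_span_singleton] at this
    exact ha this
  by_cases hD1 : D ∈ p₁
  · right
    have hD2 : D ∉ p₂ := hnD D hD hD1
    have hD'2 : D' ∈ p₂ := (h₂.mem_or_mem hπN₂).resolve_left hD2
    have hD'1 : D' ∉ p₁ := fun h => hnD D' hD' h hD'2
    exact ⟨by rw [mul_comm, hmul], hD'1, hD2⟩
  · left
    have hD'1 : D' ∈ p₁ := (h₁.mem_or_mem hπN₁).resolve_left hD1
    exact ⟨hmul, hD1, hnD D' hD' hD'1⟩

end Abstract

/-! ## `D`, `D'` lie in the finite chart -/

section Chart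

variable (P : ValuationSubring Qb) (E : IntermediateField ℚ Qb) (M p : ℕ) [NeZero M] [NeZero p]

theorem coe_uE_int (N : ℕ) [NeZero N] (hpN : p ∣ N) :
    ((uE E N p hpN : FE E N) : LaurentSeries E)
      = coeffMap (Int.castRingHom E) ((p : LaurentSeries ℤ) ^ 12 * unitL ℤ p) := by
  rw [coe_uE, uSeriesE, map_mul, map_pow, map_natCast, h88_coeffMap_unitL]

theorem coe_gE_int (N : ℕ) [NeZero N] (hpN : p ∣ N) :
    ((gE E N p hpN : FE E N) : LaurentSeries E)
      = coeffMap (Int.castRingHom E) (H589.unitL' p) := by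
  rw [coe_gE, ← gL_int, coeffMap_gL]

/-- `D'` is integral over `ℤ[j]` and `D` is integral over `ℤ[j_p]`, inside `F_{N,E}`. -/
theorem exists_unitPoly_FE (hp : p.Prime) (N : ℕ) [NeZero N] (hpN : p ∣ N) :
    ∃ Ψ : Polynomial (Polynomial ℤ), Ψ.Monic ∧
      Ψ.eval₂ (Polynomial.aeval (R := ℤ) (jE E N 1 (one_dvd N))).toRingHom (uE E N p hpN) = 0 ∧
      Ψ.eval₂ (Polynomial.aeval (R := ℤ) (jE E N p hpN)).toRingHom (gE E N p hpN) = 0 := by
  obtain ⟨Ψ, hΨ, h1, h2⟩ := Fermat.Agent.S15.H482.exists_unitPoly_int p hp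
  exact ⟨Ψ, hΨ,
    H873.eval₂_eq_zero_of_int E N Ψ _ _ _ _ (coe_uE_int E p N hpN) (H873.coe_jE_one E N) h1,
    H873.eval₂_eq_zero_of_int E N Ψ _ _ _ _ (coe_gE_int E p N hpN)
      (H873.coe_jE_int E N p hpN) h2⟩

/-- **Valuative form**: every valuation ring of `F_{Mp,E}` containing `x = j j_p` contains
`j`, `j_p`, `D'` and `D`. -/
theorem mem_of_xE_mem (hp : p.Prime) (A : ValuationSubring (FE E (M * p)))
    (hx : xE E M p ∈ A) :
    jE E (M * p) 1 (one_dvd _) ∈ A ∧ jE E (M * p) p (dvd_mul_left p M) ∈ A ∧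
      uE E (M * p) p (dvd_mul_left p M) ∈ A ∧ gE E (M * p) p (dvd_mul_left p M) ∈ A := by
  obtain ⟨D⟩ := S28.H807.nonempty_modPolyData p hp
  have hj : D.Φ.eval₂ (Polynomial.aeval (R := ℤ)
      (jE E (M * p) p (dvd_mul_left p M))).toRingHom (jE E (M * p) 1 (one_dvd _)) = 0 :=
    H873.eval₂_eq_zero_of_int E (M * p) D.Φ _ _ _ _ (H873.coe_jE_one E (M * p))
      (H873.coe_jE_int E (M * p) p (dvd_mul_left p M)) D.eval_j
  have hjp : D.Φ.eval₂ (Polynomial.aeval (R := ℤ)
      (jE E (M * p) 1 (one_dvd _))).toRingHom (jE E (M * p) p (dvd_mul_left p M)) = 0 :=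
    H873.eval₂_eq_zero_of_int E (M * p) D.Φ _ _ _ _
      (H873.coe_jE_int E (M * p) p (dvd_mul_left p M)) (H873.coe_jE_one E (M * p)) D.eval_jp
  have h1 : jE E (M * p) 1 (one_dvd _) ∈ A := mem_of_mul_mem277 D.Φ D.monic hj A hx
  have hx' : jE E (M * p) p (dvd_mul_left p M) * jE E (M * p) 1 (one_dvd _) ∈ A := by
    have h : jE E (M * p) p (dvd_mul_left p M) * jE E (M * p) 1 (one_dvd _) = xE E M p :=
      mul_comm _ _
    rw [h]
    exact hx
  have h2 : jE E (M * p) p (dvd_mul_left p M) ∈ A :=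
    mem_of_mul_mem277 D.Φ D.monic hjp A hx'
  obtain ⟨Ψ, hΨ, hu, hg⟩ := exists_unitPoly_FE E p hp (M * p) (dvd_mul_left p M)
  exact ⟨h1, h2, H873.mem_valuationSubring_of_monic_eval Ψ hΨ hu A h1,
    H873.mem_valuationSubring_of_monic_eval Ψ hΨ hg A h2⟩

/-- `D' = p¹² Δ(t^p)/Δ(t)` lies in the finite chart. -/
theorem uE_mem_chartAlg (hp : p.Prime) :
    uE E (M * p) p (dvd_mul_left p M) ∈ chartAlg P E (M * p) (xE E M p) := by
  rw [mem_chartAlg, Fermat.Agent.A2.H408.isIntegral_adjoin_iff_forall_valuationSubring]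
  intro V _ hs
  exact (mem_of_xE_mem E M p hp V (hs _ (Set.mem_singleton _))).2.2.1

/-- `D = Δ(t)/Δ(t^p)` lies in the finite chart. -/
theorem gE_mem_chartAlg (hp : p.Prime) :
    gE E (M * p) p (dvd_mul_left p M) ∈ chartAlg P E (M * p) (xE E M p) := by
  rw [mem_chartAlg, Fermat.Agent.A2.H408.isIntegral_adjoin_iff_forall_valuationSubring]
  intro V _ hs
  exact (mem_of_xE_mem E M p hp V (hs _ (Set.mem_singleton _))).2.2.2

end Chart

/-! ## The uniformiser -/

section Unif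

variable {P : ValuationSubring Qb} {E : IntermediateField ℚ Qb} {M p : ℕ} [NeZero M] [NeZero p]
  {w : RE P E}

/-- `p = unit · w ^ e` in `R_E`, `e ≠ 0`. -/
theorem exists_unit_pow (hS : Setting P E M p w) :
    ∃ (u : (RE P E)ˣ) (e : ℕ), e ≠ 0 ∧ (p : RE P E) * u = w ^ e := by
  haveI := hS.dvr
  have hp0 : (p : RE P E) ≠ 0 := Nat.cast_ne_zero.mpr (NeZero.ne p)
  obtain ⟨e, u, hu⟩ := IsDiscreteValuationRing.associated_pow_irreducible hp0 hS.unif
  refine ⟨u, e, ?_, hu⟩
  rintro rfl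
  rw [pow_zero] at hu
  -- `p` would be a unit of `P`
  have h1 : (p : Qb) * (((u : RE P E) : E) : Qb) = 1 := by
    have h2 := congrArg (fun r : RE P E => (((r : E) : Qb))) hu
    simpa using h2
  have hmem : (((u : RE P E) : E) : Qb) ∈ P := (u : RE P E).2
  have hlo : (p : Qb) ∈ P.nonunits := hS.lies_over
  rw [ValuationSubring.mem_nonunits_iff] at hlo
  have hv : P.valuation (((u : RE P E) : E) : Qb) ≤ 1 := (P.valuation_le_one_iff _).mpr hmem
  have h3 := congrArg P.valuation h1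
  rw [map_mul, map_one] at h3
  have h4 : P.valuation (p : Qb) * P.valuation (((u : RE P E) : E) : Qb) < 1 :=
    mul_lt_one_of_lt_of_le hlo hv
  rw [h3] at h4
  exact lt_irrefl _ h4

end Unif

/-! ## The pair in the chart -/

section Pair

variable {P : ValuationSubring Qb} {E : IntermediateField ℚ Qb} {M p : ℕ} [NeZero M] [NeZero p]
  {w : RE P E}

/-- the constant `r ∈ R_E` as an element of `F_{N,E}`: the two spellings agree. -/
theorem algebraMap_RE_eq (N : ℕ) (r : RE P E) :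
    algebraMap (RE P E) (FE E N) r = cE P E N r := rfl

/-- every valuation ring containing `R_E` and `x` contains the finite chart. -/
theorem chartAlg_le {N : ℕ} {y : FE E N} {V : ValuationSubring (FE E N)}
    (hR : ∀ r : RE P E, cE P E N r ∈ V) (hy : y ∈ V) {b : FE E N}
    (hb : b ∈ chartAlg P E N y) : b ∈ V := by
  rw [mem_chartAlg, Fermat.Agent.A2.H408.isIntegral_adjoin_iff_forall_valuationSubring] at hb
  refine hb V hR ?_
  intro z hz
  rw [Set.mem_singleton_iff] at hz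
  rw [hz]
  exact hy

variable (P E M p)

/-- `D = Δ(t)/Δ(t^p)` as an element of the finite chart. -/
def pairD (hp : p.Prime) : chartAlg P E (M * p) (xE E M p) :=
  ⟨gE E (M * p) p (dvd_mul_left p M), gE_mem_chartAlg P E M p hp⟩

/-- `D'' = v · p¹² Δ(t^p)/Δ(t)` as an element of the finite chart (`v ∈ R_E`). -/
def pairD' (hp : p.Prime) (v : RE P E) : chartAlg P E (M * p) (xE E M p) :=
  algebraMap (RE P E) (chartAlg P E (M * p) (xE E M p)) v *
    ⟨uE E (M * p) p (dvd_mul_left p M), uE_mem_chartAlg P E M p hp⟩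

theorem coe_pairD (hp : p.Prime) :
    ((pairD P E M p hp : chartAlg P E (M * p) (xE E M p)) : FE E (M * p))
      = gE E (M * p) p (dvd_mul_left p M) := rfl

theorem coe_pairD' (hp : p.Prime) (v : RE P E) :
    ((pairD' P E M p hp v : chartAlg P E (M * p) (xE E M p)) : FE E (M * p))
      = cE P E (M * p) v * uE E (M * p) p (dvd_mul_left p M) := rfl

variable {P E M p}

theorem gE_mul_uE_cE (N : ℕ) [NeZero N] (hpN : p ∣ N) :
    gE E N p hpN * uE E N p hpN = cE P E N ((p : RE P E) ^ 12) := by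
  rw [gE_mul_uE, cE]
  congr 1

/-- **`D · D'' = w ^ n`** when `p¹² · v = w ^ n`. -/
theorem pairD_mul (hp : p.Prime) (v : RE P E) (n : ℕ) (hv : (p : RE P E) ^ 12 * v = w ^ n) :
    pairD P E M p hp * pairD' P E M p hp v
      = algebraMap (RE P E) (chartAlg P E (M * p) (xE E M p)) w ^ n := by
  apply Subtype.ext
  have h1 : ((pairD P E M p hp * pairD' P E M p hp v :
      chartAlg P E (M * p) (xE E M p)) : FE E (M * p))
      = gE E (M * p) p (dvd_mul_left p M) *
        (cE P E (M * p) v * uE E (M * p) p (dvd_mul_left p M)) := rfl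
  have h2 : ((algebraMap (RE P E) (chartAlg P E (M * p) (xE E M p)) w ^ n :
      chartAlg P E (M * p) (xE E M p)) : FE E (M * p))
      = algebraMap (RE P E) (FE E (M * p)) (w ^ n) := by
    rw [SubmonoidClass.coe_pow, map_pow]
    rfl
  have h3 : cE P E (M * p) v * cE P E (M * p) ((p : RE P E) ^ 12)
      = algebraMap (RE P E) (FE E (M * p)) ((p : RE P E) ^ 12 * v) := by
    rw [mul_comm ((p : RE P E) ^ 12) v, map_mul]
    rfl
  rw [h1, h2, mul_left_comm, gE_mul_uE_cE (P := P), h3, hv]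

/-! ### The `t`-expansions (for the frame fields `hD₂`, `IsModUnit`) -/

/-- the `t`-expansion of `D` is the image of the integral series `Δ(t)/Δ(t^p) ∈ ℤ((t))`
(`= S36.H438.castE E (H589.unitL' p)`). -/
theorem coe_pairD_int (hp : p.Prime) :
    (((pairD P E M p hp : chartAlg P E (M * p) (xE E M p)) : FE E (M * p)) : LaurentSeries E)
      = coeffMap (Int.castRingHom E) (H589.unitL' p) :=
  coe_gE_int E p (M * p) (dvd_mul_left p M)

/-- the `t`-expansion of `D` is `gL E p = Δ(t)/Δ(t^p)`. -/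
theorem coe_pairD_eq_gL (hp : p.Prime) :
    (((pairD P E M p hp : chartAlg P E (M * p) (xE E M p)) : FE E (M * p)) : LaurentSeries E)
      = gL E p := rfl

/-- `Δ(t^p)/Δ(t) · D = 1` over `E`. -/
theorem unitL_mul_coe_pairD (hp : p.Prime) :
    unitL E p *
      (((pairD P E M p hp : chartAlg P E (M * p) (xE E M p)) : FE E (M * p)) : LaurentSeries E)
      = 1 := by
  rw [coe_pairD_eq_gL, unitL_mul_gL]

/-- `Δ(t^p)/Δ(t) · D = 1` after base change of the coefficients along ANY ring homomorphism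
(e.g. `E → ℚ̄`: with `IsModUnit p M' D₀`, i.e. `D₀ = unitL ℚ̄ p`, this is
`D₀ · coeffMap (algebraMap E ℚ̄) D = 1`). -/
theorem unitL_mul_coeffMap_coe_pairD {S : Type*} [CommRing S] (φ : E →+* S) (hp : p.Prime) :
    unitL S p * coeffMap φ
      (((pairD P E M p hp : chartAlg P E (M * p) (xE E M p)) : FE E (M * p)) : LaurentSeries E)
      = 1 := by
  rw [coe_pairD_eq_gL, coeffMap_gL, unitL_mul_gL]

/-- base change of the coefficients maps `D` of level `E` to `D` of level `E'`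
(field `hD₂` of a two-level frame). -/
theorem coeffMap_coe_pairD {P' : ValuationSubring Qb} {E' : IntermediateField ℚ Qb}
    (φ : E →+* E') (hp : p.Prime) :
    coeffMap φ
      (((pairD P E M p hp : chartAlg P E (M * p) (xE E M p)) : FE E (M * p)) : LaurentSeries E)
      = (((pairD P' E' M p hp : chartAlg P' E' (M * p) (xE E' M p)) : FE E' (M * p)) :
          LaurentSeries E') := by
  rw [coe_pairD_eq_gL, coe_pairD_eq_gL, coeffMap_gL]

/-- a unit of `V` is not in `w V`. -/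
theorem not_inW_of_unit {N : ℕ} (hN : N ≠ 0) (hdvr : IsDiscreteValuationRing (RE P E))
    (hw : Irreducible w) {V : ValuationSubring (FE E N)} (hV : IsVinf P E N V) {f : FE E N}
    (hf : f⁻¹ ∈ V) (hf0 : f ≠ 0) : ¬ InW P E N V w f := by
  intro h
  have hunif := (H708.vinfBasic P E w N hN hdvr hw V hV).1
  apply hunif.inv_not_mem
  have : (cE P E N w)⁻¹ = f⁻¹ * (f * (cE P E N w)⁻¹) := by
    rw [← mul_assoc, inv_mul_cancel₀ hf0, one_mul]
  rw [this]
  exact V.mul_mem _ _ hf h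

/-- `R_E ⊆ V∞`. -/
theorem cE_mem {N : ℕ} (hN : N ≠ 0) (hdvr : IsDiscreteValuationRing (RE P E))
    (hw : Irreducible w) {V : ValuationSubring (FE E N)} (hV : IsVinf P E N V) (r : RE P E) :
    cE P E N r ∈ V :=
  ((H708.vinfBasic P E w N hN hdvr hw V hV).2.1 (r : E)).mpr r.2

/-- `D ∉ w V∞`. -/
theorem not_inW_gE (hS : Setting P E M p w) {V : ValuationSubring (FE E (M * p))}
    (hV : IsVinf P E (M * p) V) :
    ¬ InW P E (M * p) V w (gE E (M * p) p (dvd_mul_left p M)) :=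
  not_inW_of_unit (NeZero.ne _) hS.dvr hS.unif hV (gE_unit (dvd_mul_left p M) hV).2
    (gE_ne_zero E (M * p) p _)

/-- `W` fixes the constants. -/
theorem fricke_cE (W : FE E (M * p) ≃ₐ[E] FE E (M * p)) (r : RE P E) :
    W (cE P E (M * p) r) = cE P E (M * p) r := W.commutes _

theorem cancel_aux277 {K : Type*} [Field K] {a b : K} (c : K) (ha : a ≠ 0) (hb : b ≠ 0) :
    c = b⁻¹ * (a⁻¹ * (a * b * c)) := by
  field_simp

/-- the inverse of a unit of `R_E` is a constant of `R_E`. -/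
theorem cE_unit_inv (N : ℕ) (v : (RE P E)ˣ) :
    (cE P E N (v : RE P E))⁻¹ = cE P E N ((v⁻¹ : (RE P E)ˣ) : RE P E) := by
  have h1 : (v⁻¹ : (RE P E)ˣ).1 * v.1 = 1 := Units.inv_mul v
  have h2 : cE P E N ((v⁻¹ : (RE P E)ˣ) : RE P E) * cE P E N (v : RE P E) = 1 := by
    have h3 : cE P E N ((v⁻¹ : (RE P E)ˣ) : RE P E) * cE P E N (v : RE P E)
        = algebraMap (RE P E) (FE E N) ((v⁻¹ : (RE P E)ˣ).1 * v.1) := by
      rw [map_mul]
      rfl
    rw [h3, h1, map_one]
  exact (eq_inv_of_mul_eq_one_left h2).symm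

theorem cE_unit_ne_zero (N : ℕ) (v : (RE P E)ˣ) : cE P E N (v : RE P E) ≠ 0 := by
  intro h0
  have h1 : (v⁻¹ : (RE P E)ˣ).1 * v.1 = 1 := Units.inv_mul v
  have h3 : cE P E N ((v⁻¹ : (RE P E)ˣ) : RE P E) * cE P E N (v : RE P E)
      = algebraMap (RE P E) (FE E N) ((v⁻¹ : (RE P E)ˣ).1 * v.1) := by
    rw [map_mul]
    rfl
  rw [h0, mul_zero, h1, map_one] at h3
  exact zero_ne_one h3

/-- `D'' = v D' ∉ w V₀`, `V₀ = V∞.comap W`, for every unit `v` of `R_E`. -/
theorem not_inW_uE (hS : Setting P E M p w) {V : ValuationSubring (FE E (M * p))}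
    (hV : IsVinf P E (M * p) V) {W : FE E (M * p) ≃ₐ[E] FE E (M * p)}
    (hW : IsFricke E (M * p) W) (v : (RE P E)ˣ) :
    ¬ InW P E (M * p) (V.comap (W : FE E (M * p) →+* FE E (M * p))) w
      (cE P E (M * p) (v : RE P E) * uE E (M * p) p (dvd_mul_left p M)) := by
  intro h
  have hN : M * p ≠ 0 := NeZero.ne _
  have h' : W (cE P E (M * p) (v : RE P E) * uE E (M * p) p (dvd_mul_left p M) *
      (cE P E (M * p) w)⁻¹) ∈ V := h
  rw [map_mul, map_mul, map_inv₀, fricke_cE, fricke_cE] at h'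
  have hunit := fricke_uE_unit hV hW
  have hWu0 : W (uE E (M * p) p (dvd_mul_left p M)) ≠ 0 := by
    intro h0
    exact uE_ne_zero E (M * p) p _ (W.injective (h0.trans (map_zero W).symm))
  have huinv : (cE P E (M * p) (v : RE P E))⁻¹ ∈ V := by
    rw [cE_unit_inv]
    exact cE_mem hN hS.dvr hS.unif hV _
  apply (H708.vinfBasic P E w (M * p) hN hS.dvr hS.unif V hV).1.inv_not_mem
  rw [cancel_aux277 (cE P E (M * p) w)⁻¹ (cE_unit_ne_zero (M * p) v) hWu0]
  exact V.mul_mem _ _ hunit.2 (V.mul_mem _ _ huinv h')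

/-! ## The unit pair -/

/-- **INST-B, cut form.**  For the two components `p₁ = B ∩ w V∞`, `p₂ = B ∩ w V₀` of the
finite chart (`IsCut`, as produced by `S1Statement`), `(D, D'')` is a unit pair of exponent `n`,
where `p¹² · v = w ^ n`, `v` a unit of `R_E`. -/
theorem isUnitPair_of_isCut (hS : Setting P E M p w) {V : ValuationSubring (FE E (M * p))}
    (hV : IsVinf P E (M * p) V) {W : FE E (M * p) ≃ₐ[E] FE E (M * p)}
    (hW : IsFricke E (M * p) W) (p₁ p₂ : Ideal (chartAlg P E (M * p) (xE E M p)))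
    (h₁ : IsCut P E (M * p) w V (chartAlg P E (M * p) (xE E M p)) p₁)
    (h₂ : IsCut P E (M * p) w (V.comap (W : FE E (M * p) →+* FE E (M * p)))
      (chartAlg P E (M * p) (xE E M p)) p₂)
    (v : (RE P E)ˣ) (n : ℕ) (hv : (p : RE P E) ^ 12 * v = w ^ n) :
    I6.IsUnitPair p₁ p₂ (algebraMap (RE P E) (chartAlg P E (M * p) (xE E M p)) w)
      (pairD P E M p hS.q_prime) (pairD' P E M p hS.q_prime v) n := by
  have hmul := pairD_mul (P := P) (E := E) (M := M) (w := w) hS.q_prime (v : RE P E) n hv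
  have hD : pairD P E M p hS.q_prime ∉ p₁ := by
    intro h
    have h' := (h₁ (pairD P E M p hS.q_prime)).mp h
    rw [coe_pairD] at h'
    exact not_inW_gE hS hV h'
  have hD' : pairD' P E M p hS.q_prime (v : RE P E) ∉ p₂ := by
    intro h
    have h' := (h₂ (pairD' P E M p hS.q_prime (v : RE P E))).mp h
    rw [coe_pairD'] at h'
    exact not_inW_uE hS hV hW v h'
  exact ⟨hmul, hD, hD'⟩

/-- `x = j j_p ∈ V∞`. -/
theorem xE_mem (hS : Setting P E M p w) {V : ValuationSubring (FE E (M * p))}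
    (hV : IsVinf P E (M * p) V) : xE E M p ∈ V := by
  have h := (H708.vinfBasic P E w (M * p) (NeZero.ne _) hS.dvr hS.unif V hV).2.2
  exact V.mul_mem _ _ (h 1 (one_dvd _)).1 (h p (dvd_mul_left p M)).1

/-- `W x ∈ V∞`, i.e. `x ∈ V₀`. -/
theorem fricke_xE_mem (hS : Setting P E M p w) {V : ValuationSubring (FE E (M * p))}
    (hV : IsVinf P E (M * p) V) {W : FE E (M * p) ≃ₐ[E] FE E (M * p)}
    (hW : IsFricke E (M * p) W) : W (xE E M p) ∈ V := by
  have h := (H708.vinfBasic P E w (M * p) (NeZero.ne _) hS.dvr hS.unif V hV).2.2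
  rw [xE, map_mul, hW.1 1 (M * p) (one_dvd _) dvd_rfl (one_mul _),
    hW.1 p M (dvd_mul_left p M) (dvd_mul_right M p) (mul_comm p M)]
  exact V.mul_mem _ _ (h (M * p) dvd_rfl).1 (h M (dvd_mul_right M p)).1

theorem cE_ne_zero277 (N : ℕ) {r : RE P E} (hr : r ≠ 0) : cE P E N r ≠ 0 := by
  intro h0
  have h1 := (algebraMap E (FE E N)).injective (h0.trans (map_zero _).symm)
  exact hr (Subtype.ext h1)

/-- `w ∤ D` in the finite chart. -/
theorem not_dvd_pairD (hS : Setting P E M p w) {V : ValuationSubring (FE E (M * p))}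
    (hV : IsVinf P E (M * p) V) :
    ¬ algebraMap (RE P E) (chartAlg P E (M * p) (xE E M p)) w ∣ pairD P E M p hS.q_prime := by
  rintro ⟨b, hb⟩
  apply not_inW_gE hS hV
  have hbV : (b : FE E (M * p)) ∈ V :=
    chartAlg_le (fun r => cE_mem (NeZero.ne _) hS.dvr hS.unif hV r) (xE_mem hS hV) b.2
  have h1 : gE E (M * p) p (dvd_mul_left p M) = cE P E (M * p) w * (b : FE E (M * p)) :=
    congrArg Subtype.val hb
  show gE E (M * p) p (dvd_mul_left p M) * (cE P E (M * p) w)⁻¹ ∈ V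
  rw [h1, mul_comm (cE P E (M * p) w) (b : FE E (M * p)),
    mul_inv_cancel_right₀ (cE_ne_zero277 _ hS.unif.ne_zero)]
  exact hbV

/-- `w ∤ D''` in the finite chart. -/
theorem not_dvd_pairD' (hS : Setting P E M p w) {V : ValuationSubring (FE E (M * p))}
    (hV : IsVinf P E (M * p) V) {W : FE E (M * p) ≃ₐ[E] FE E (M * p)}
    (hW : IsFricke E (M * p) W) (v : (RE P E)ˣ) :
    ¬ algebraMap (RE P E) (chartAlg P E (M * p) (xE E M p)) w ∣
      pairD' P E M p hS.q_prime v := by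
  rintro ⟨b, hb⟩
  apply not_inW_uE hS hV hW v
  have hbV : (b : FE E (M * p)) ∈ V.comap (W : FE E (M * p) →+* FE E (M * p)) := by
    refine chartAlg_le (P := P) (fun r => ?_) ?_ b.2
    · show W (cE P E (M * p) r) ∈ V
      rw [fricke_cE]
      exact cE_mem (NeZero.ne _) hS.dvr hS.unif hV r
    · exact fricke_xE_mem hS hV hW
  have h1 : cE P E (M * p) (v : RE P E) * uE E (M * p) p (dvd_mul_left p M)
      = cE P E (M * p) w * (b : FE E (M * p)) := congrArg Subtype.val hb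
  show cE P E (M * p) (v : RE P E) * uE E (M * p) p (dvd_mul_left p M) *
    (cE P E (M * p) w)⁻¹ ∈ V.comap (W : FE E (M * p) →+* FE E (M * p))
  rw [h1, mul_comm (cE P E (M * p) w) (b : FE E (M * p)),
    mul_inv_cancel_right₀ (cE_ne_zero277 _ hS.unif.ne_zero)]
  exact hbV

/-- **INST-B, chart form.**  For ANY two primes of the finite chart with `p₁ ⊓ p₂ = (w)`
(e.g. the components `c.p₁, c.p₂` of any `A2.SSChart w B`), `(D, D'')` is a unit pair of
exponent `n` in one of the two orders. -/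
theorem isUnitPair_or (hS : Setting P E M p w) {V : ValuationSubring (FE E (M * p))}
    (hV : IsVinf P E (M * p) V) {W : FE E (M * p) ≃ₐ[E] FE E (M * p)}
    (hW : IsFricke E (M * p) W) (p₁ p₂ : Ideal (chartAlg P E (M * p) (xE E M p)))
    [p₁.IsPrime] [p₂.IsPrime]
    (hinf : p₁ ⊓ p₂ = Ideal.span {algebraMap (RE P E) (chartAlg P E (M * p) (xE E M p)) w})
    (v : (RE P E)ˣ) (n : ℕ) (hn : n ≠ 0) (hv : (p : RE P E) ^ 12 * v = w ^ n) :
    I6.IsUnitPair p₁ p₂ (algebraMap (RE P E) (chartAlg P E (M * p) (xE E M p)) w)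
        (pairD P E M p hS.q_prime) (pairD' P E M p hS.q_prime v) n ∨
      I6.IsUnitPair p₁ p₂ (algebraMap (RE P E) (chartAlg P E (M * p) (xE E M p)) w)
        (pairD' P E M p hS.q_prime v) (pairD P E M p hS.q_prime) n := by
  have hmul := pairD_mul (P := P) (E := E) (M := M) (w := w) hS.q_prime (v : RE P E) n hv
  have h1 := not_dvd_pairD hS hV
  have h2 := not_dvd_pairD' hS hV hW v
  exact isUnitPair_or_of_not_dvd p₁ p₂
    (algebraMap (RE P E) (chartAlg P E (M * p) (xE E M p)) w)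
    (pairD P E M p hS.q_prime) (pairD' P E M p hS.q_prime v) n hn hinf hmul h1 h2

/-- the exponent: `p¹² · u¹² = w ^ (12 e)` with `e ≠ 0`. -/
theorem exists_unit_pow12 (hS : Setting P E M p w) :
    ∃ (v : (RE P E)ˣ) (e : ℕ), e ≠ 0 ∧ (p : RE P E) ^ 12 * v = w ^ (12 * e) := by
  obtain ⟨u, e, he, hu⟩ := exists_unit_pow hS
  refine ⟨u ^ 12, e, he, ?_⟩
  rw [Units.val_pow_eq_pow_val, ← mul_pow, hu, ← pow_mul, mul_comm]

end Pair

/-! ## Transfer to the node ring of INST-A -/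

section LocAt

open Fermat.Agent.A2.H849

variable {B : Type*} [CommRing B] [IsDomain B]
variable {F : Type*} [Field F] [Algebra B F] [IsFractionRing B F]

/-- A unit pair of the chart `B` for two primes `p₁, p₂ ⊆ n` stays a unit pair in the local ring
`B_n = locAt F n` (the node ring of `Ribet/H132/InstA.lean`). -/
theorem isUnitPair_map_locAt (p₁ p₂ n : Ideal B) [hp₁ : p₁.IsPrime] [hp₂ : p₂.IsPrime]
    [n.IsPrime] (h₁ : p₁ ≤ n) (h₂ : p₂ ≤ n) {π D D' : B} {N : ℕ}
    (h : I6.IsUnitPair p₁ p₂ π D D' N) :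
    I6.IsUnitPair (p₁.map (algebraMap B (locAt F n))) (p₂.map (algebraMap B (locAt F n)))
      (algebraMap B (locAt F n) π) (algebraMap B (locAt F n) D)
      (algebraMap B (locAt F n) D') N := by
  have key : ∀ (q : Ideal B), q.IsPrime → q ≤ n → ∀ a : B,
      algebraMap B (locAt F n) a ∈ q.map (algebraMap B (locAt F n)) → a ∈ q := by
    intro q hq hqn a ha
    have hdisj : Disjoint (n.primeCompl : Set B) (q : Set B) := by
      rw [Set.disjoint_left]
      intro x hx hxq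
      exact hx (hqn hxq)
    have hcomap : (q.map (algebraMap B (locAt F n))).under B = q :=
      IsLocalization.under_map_of_isPrime_disjoint n.primeCompl (locAt F n) hq hdisj
    have : a ∈ (q.map (algebraMap B (locAt F n))).under B := ha
    rwa [hcomap] at this
  refine ⟨?_, fun hD => h.hD (key p₁ hp₁ h₁ D hD), fun hD' => h.hD' (key p₂ hp₂ h₂ D' hD')⟩
  rw [← map_mul, h.mul_eq, map_pow]

end LocAt

/-! ## Packaged forms -/

section Packaged

open Fermat.Agent.A2.H849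

variable {P : ValuationSubring Qb} {E : IntermediateField ℚ Qb} {M p : ℕ} [NeZero M] [NeZero p]
  {w : RE P E}

/-- **INST-B (packaged, chart).**  In the setting `Setting P E M p w` (level `M * p`, `R_E` a
discrete valuation ring with uniformiser `w`), for ANY two primes `p₁, p₂` of the finite chart
`B = chartAlg P E (M * p) (j · j_p)` with `p₁ ⊓ p₂ = (w)`: there is a unit pair of exponent
`12 e`, where `e ≠ 0` is the ramification index (`p · u = w ^ e`, `u` a unit of `R_E`).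
The pair is `(D, u¹² D')` or `(u¹² D', D)`, `D = Δ(t)/Δ(t^p)`, `D' = p¹² Δ(t^p)/Δ(t)`. -/
theorem exists_isUnitPair (hS : Setting P E M p w)
    (p₁ p₂ : Ideal (chartAlg P E (M * p) (xE E M p))) [p₁.IsPrime] [p₂.IsPrime]
    (hinf : p₁ ⊓ p₂ = Ideal.span {algebraMap (RE P E) (chartAlg P E (M * p) (xE E M p)) w}) :
    ∃ (e : ℕ) (u : (RE P E)ˣ) (D D' : chartAlg P E (M * p) (xE E M p)),
      e ≠ 0 ∧ (p : RE P E) * u = w ^ e ∧
      I6.IsUnitPair p₁ p₂ (algebraMap (RE P E) (chartAlg P E (M * p) (xE E M p)) w) D D'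
        (12 * e) := by
  have hN : M * p ≠ 0 := NeZero.ne _
  obtain ⟨V, hV⟩ := H708.vinfExists P E (M * p) hN hS.dvr
  obtain ⟨W, hW⟩ := H751.frickeExists E (M * p) hN
  obtain ⟨u, e, he, hu⟩ := exists_unit_pow hS
  have hv : (p : RE P E) ^ 12 * ((u ^ 12 : (RE P E)ˣ) : RE P E) = w ^ (12 * e) := by
    rw [Units.val_pow_eq_pow_val, ← mul_pow, hu, ← pow_mul, mul_comm]
  rcases isUnitPair_or hS hV hW p₁ p₂ hinf (u ^ 12) (12 * e)
      (mul_ne_zero (by norm_num) he) hv with h | h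
  · exact ⟨e, u, _, _, he, hu, h⟩
  · exact ⟨e, u, _, _, he, hu, h⟩

/-- **INST-B (packaged, semistable chart).**  The same for the components of any
`A2.SSChart w B` structure on the finite chart. -/
theorem exists_isUnitPair_ssChart (hS : Setting P E M p w)
    (c : Fermat.Agent.A2.SSChart w (chartAlg P E (M * p) (xE E M p))) :
    ∃ (e : ℕ) (u : (RE P E)ˣ) (D D' : chartAlg P E (M * p) (xE E M p)),
      e ≠ 0 ∧ (p : RE P E) * u = w ^ e ∧
      I6.IsUnitPair c.p₁ c.p₂ (algebraMap (RE P E) (chartAlg P E (M * p) (xE E M p)) w) D D'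
        (12 * e) := by
  haveI := c.prime₁
  haveI := c.prime₂
  exact exists_isUnitPair hS c.p₁ c.p₂ c.inf_eq

end Packaged

end Fermat.Agent.Ribet.H277

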