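import Fermat.Agent.A2.Mod.Spec
import Fermat.Agent.S15.H422.UnitInt
import Fermat.Agent.S15.H482.CuspK3

/-!
# RIBET / wall at `p` / INST-B (helper277), part 1: the modular unit pair as series

`N` a level, `p` a prime dividing `N`, `E ⊆ ℚ̄` a field.

* `gL R p = Δ(q)/Δ(q^p)` over any ring (`= H589.unitL' p` for `R = ℤ`), the inverse of
  `S28.unitL R p = Δ(q^p)/Δ(q)`;
* `gE E N p`, `uE E N p` : the elements `D = Δ(t)/Δ(t^p)` and `D' = p¹² Δ(t^p)/Δ(t)` of
  `F_{N,E} = FE E N`;  `gE * uE = p¹²`;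
* `uE_isIntegral`, `gE_isIntegral` : `D'` is integral over `ℤ[j]`, `D` is integral over `ℤ[j_p]`
  (`S28.UnitPolyData`, `S15.H482.exists_unitPoly_int`), in the form: root of a monic polynomial
  with coefficients polynomials in `j` resp. `j_p` over `ℤ`.
-/

set_option autoImplicit false
set_option synthInstance.maxHeartbeats 400000
set_option maxHeartbeats 1600000

noncomputable section

namespace Fermat.Agent.Ribet.H277

open ModularCurve HahnSeries Polynomial
open Fermat.Agent.S28 Fermat.Agent.S24 Fermat.Agent.A2 Fermat.Agent.A2.Mod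

/-! ## Series over an arbitrary ring -/

section Series

variable (R : Type*) [CommRing R] (p : ℕ) [NeZero p]

/-- `Δ(q)/Δ(q^p)` over `R`. -/
def gL : LaurentSeries R := deltaL R * qExpand R p (deltaInvL R)

theorem coeffMap_gL {R S : Type*} [CommRing R] [CommRing S] (f : R →+* S) (p : ℕ) [NeZero p] :
    coeffMap f (gL R p) = gL S p := by
  rw [gL, map_mul, coeffMap_qExpand, h88_coeffMap_deltaL, h88_coeffMap_deltaInvL]
  rfl

theorem unitL_mul_gL : unitL R p * gL R p = 1 := by
  rw [unitL, gL]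
  have h1 : deltaL R * deltaInvL R = 1 := h88_deltaL_mul_deltaInvL R
  have h2 : qExpand R p (deltaL R) * qExpand R p (deltaInvL R) = 1 := by
    rw [← map_mul, h1, map_one]
  calc qExpand R p (deltaL R) * deltaInvL R * (deltaL R * qExpand R p (deltaInvL R))
      = (deltaL R * deltaInvL R) * (qExpand R p (deltaL R) * qExpand R p (deltaInvL R)) := by
        ring
    _ = 1 := by rw [h1, h2, mul_one]

theorem gL_mul_unitL : gL R p * unitL R p = 1 := by
  rw [mul_comm]; exact unitL_mul_gL R p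

theorem gL_int : gL ℤ p = H589.unitL' p := rfl

theorem gL_ne_zero [Nontrivial R] : gL R p ≠ 0 := by
  intro h
  have := gL_mul_unitL R p
  rw [h, zero_mul] at this
  exact zero_ne_one this

theorem unitL_ne_zero [Nontrivial R] : unitL R p ≠ 0 := by
  intro h
  have := unitL_mul_gL R p
  rw [h, zero_mul] at this
  exact zero_ne_one this

end Series

/-! ## The two units in `F_{N,E}` -/

section Level

variable (E : IntermediateField ℚ Qb) (N p : ℕ) [NeZero N] [NeZero p]

theorem laurentBaseChange_mono277 {L : Type*} [Field L] [Algebra ℚ L]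
    {F₀ F₁ : IntermediateField ℚ (LaurentSeries ℚ)} (h : F₀ ≤ F₁) :
    laurentBaseChange L F₀ ≤ laurentBaseChange L F₁ :=
  IntermediateField.adjoin.mono L _ _ (Set.image_mono h)

/-- the series of `D' = p¹² Δ(t^p)/Δ(t)` over `E`. -/
def uSeriesE : LaurentSeries E := (p : LaurentSeries E) ^ 12 * unitL E p

theorem coeffMap_uSeriesE :
    coeffMap (algebraMap E Qb) (uSeriesE E p) = Fermat.Agent.S15.H422.uSer p := by
  rw [uSeriesE, map_mul, map_pow, map_natCast, h88_coeffMap_unitL,
    Fermat.Agent.S15.H422.uSer_eq_unitL]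

theorem uSeriesE_mem (hpN : p ∣ N) : uSeriesE E p ∈ FE E N := by
  have h2 : uSeriesE E p ∈ laurentBaseChange E (modularFunctionFieldFull p) :=
    Fermat.Agent.S29.H882.mem_laurentBaseChange_of_coeffMap_mem (algebraMap E Qb) _
      (by rw [coeffMap_uSeriesE]; exact Fermat.Agent.S15.H422.uSer_mem p)
  exact laurentBaseChange_mono277 (full_degeneracy_le hpN) h2

theorem natCast_ne_zero277 : (p : LaurentSeries E) ≠ 0 := by
  have h : (p : LaurentSeries E) = algebraMap E (LaurentSeries E) (p : E) := by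
    rw [map_natCast]
  rw [h]
  intro h0
  have := (algebraMap E (LaurentSeries E)).injective (h0.trans (map_zero _).symm)
  exact (Nat.cast_ne_zero.mpr (NeZero.ne p)) this

theorem gL_mul_uSeriesE : gL E p * uSeriesE E p = (p : LaurentSeries E) ^ 12 := by
  rw [uSeriesE, mul_left_comm, gL_mul_unitL, mul_one]

theorem uSeriesE_ne_zero : uSeriesE E p ≠ 0 :=
  mul_ne_zero (pow_ne_zero _ (natCast_ne_zero277 E p)) (unitL_ne_zero E p)

theorem gL_eq : gL E p = (p : LaurentSeries E) ^ 12 * (uSeriesE E p)⁻¹ := by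
  rw [← gL_mul_uSeriesE E p, mul_assoc, mul_inv_cancel₀ (uSeriesE_ne_zero E p), mul_one]

theorem gL_mem (hpN : p ∣ N) : gL E p ∈ FE E N := by
  rw [gL_eq]
  exact mul_mem (pow_mem (natCast_mem _ p) 12) (inv_mem (uSeriesE_mem E N p hpN))

/-- `D' = p¹² Δ(t^p)/Δ(t) ∈ F_{N,E}`. -/
def uE (hpN : p ∣ N) : FE E N := ⟨uSeriesE E p, uSeriesE_mem E N p hpN⟩

/-- `D = Δ(t)/Δ(t^p) ∈ F_{N,E}`. -/
def gE (hpN : p ∣ N) : FE E N := ⟨gL E p, gL_mem E N p hpN⟩

theorem coe_uE (hpN : p ∣ N) : ((uE E N p hpN : FE E N) : LaurentSeries E) = uSeriesE E p := rfl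

theorem coe_gE (hpN : p ∣ N) : ((gE E N p hpN : FE E N) : LaurentSeries E) = gL E p := rfl

theorem gE_mul_uE (hpN : p ∣ N) :
    gE E N p hpN * uE E N p hpN = algebraMap E (FE E N) ((p : E) ^ 12) := by
  apply Subtype.ext
  show gL E p * uSeriesE E p = algebraMap E (LaurentSeries E) ((p : E) ^ 12)
  rw [gL_mul_uSeriesE, map_pow, map_natCast]

theorem gE_ne_zero (hpN : p ∣ N) : gE E N p hpN ≠ 0 := by
  intro h
  have := congrArg (Subtype.val) h
  exact gL_ne_zero E p this

theorem uE_ne_zero (hpN : p ∣ N) : uE E N p hpN ≠ 0 := by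
  intro h
  have := congrArg (Subtype.val) h
  exact uSeriesE_ne_zero E p this

/-! ### Integrality relations (series level) -/

/-- `D'` is a root of a monic polynomial with coefficients in `ℤ[j]`. -/
theorem exists_monic_uSeriesE (hp : p.Prime) :
    ∃ Ψ : Polynomial (Polynomial ℤ), Ψ.Monic ∧
      Ψ.eval₂ (evalAt (jqModC E)) (uSeriesE E p) = 0 := by
  obtain ⟨W⟩ := H807.nonempty_unitPolyData (p := p) hp
  exact ⟨W.W, W.monic, h88_unitPoly_field E p W⟩

theorem coeffMap_comp_evalAt277 (y : LaurentSeries ℤ) :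
    (coeffMap (Int.castRingHom E)).comp (evalAt y)
      = evalAt (coeffMap (Int.castRingHom E) y) := by
  refine Polynomial.ringHom_ext (fun a => ?_) ?_
  · simp [evalAt]
  · simp [evalAt]

/-- `D` is a root of a monic polynomial with coefficients in `ℤ[j_p]`. -/
theorem exists_monic_gL (hp : p.Prime) :
    ∃ Ψ : Polynomial (Polynomial ℤ), Ψ.Monic ∧
      Ψ.eval₂ (evalAt (qExpand E p (jqModC E))) (gL E p) = 0 := by
  obtain ⟨Ψ, hΨ, -, h2⟩ := Fermat.Agent.S15.H482.exists_unitPoly_int p hp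
  refine ⟨Ψ, hΨ, ?_⟩
  have h := congrArg (coeffMap (Int.castRingHom E)) h2
  rw [Polynomial.hom_eval₂, map_zero, coeffMap_comp_evalAt277, coeffMap_qExpand, coeffMap_jqModC,
    ← gL_int, coeffMap_gL] at h
  exact h

end Level

end Fermat.Agent.Ribet.H277
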